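import Fermat.Agent.S28.H213.Level1

/-!
# S28 analytic package (helper213): coefficient rings

`CoeffIn A φ`: all coefficients of the Laurent series `φ` lie in the subring `A ⊆ ℂ`.
-/

set_option autoImplicit false

noncomputable section

namespace Fermat.Agent.S28.H213

open UpperHalfPlane Complex HahnSeries ModularCurve
open Fermat.Agent.S28.H205
open scoped Real

/-- The coefficient ring `ℤ[ζ_N, 1/N]`. -/
def coeffRing (N : ℕ) : Subring ℂ :=
  Subring.closure ({Complex.exp (2 * Real.pi * Complex.I / N), (N : ℂ)⁻¹} : Set ℂ)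

/-- All coefficients in `A`. -/
def CoeffIn (A : Subring ℂ) (φ : LaurentSeries ℂ) : Prop := ∀ n : ℤ, φ.coeff n ∈ A

namespace CoeffIn

variable {A : Subring ℂ} {φ ψ : LaurentSeries ℂ}

theorem zero : CoeffIn A 0 := fun n => by simp [A.zero_mem]

theorem single (k : ℤ) {c : ℂ} (hc : c ∈ A) : CoeffIn A (HahnSeries.single k c) := by
  intro n
  rw [HahnSeries.coeff_single]
  split_ifs
  · exact hc
  · exact A.zero_mem

theorem one : CoeffIn A 1 := single 0 A.one_mem

theorem const {c : ℂ} (hc : c ∈ A) : CoeffIn A (HahnSeries.C c) := single 0 hc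

theorem add (h : CoeffIn A φ) (h' : CoeffIn A ψ) : CoeffIn A (φ + ψ) := fun n => by
  rw [HahnSeries.coeff_add]; exact A.add_mem (h n) (h' n)

theorem mul (h : CoeffIn A φ) (h' : CoeffIn A ψ) : CoeffIn A (φ * ψ) := fun n => by
  rw [HahnSeries.coeff_mul]
  exact A.sum_mem fun ij _ => A.mul_mem (h _) (h' _)

theorem pow (h : CoeffIn A φ) (k : ℕ) : CoeffIn A (φ ^ k) := by
  induction k with
  | zero => simpa using one
  | succ k ih => rw [pow_succ]; exact ih.mul h

theorem qExpand (h : CoeffIn A φ) (a : ℕ) [NeZero a] : CoeffIn A (qExpand ℂ a φ) := by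
  intro n
  by_cases hn : (a : ℤ) ∣ n
  · obtain ⟨m, rfl⟩ := hn
    rw [qExpand_coeff_mul]
    exact h m
  · rw [qExpand_coeff_of_not_dvd a φ hn]
    exact A.zero_mem

theorem twist (h : CoeffIn A φ) (u : ℂˣ) (hu : ∀ n : ℤ, (u : ℂ) ^ n ∈ A) :
    CoeffIn A (H205.twist u φ) := by
  intro n
  rw [twist_coeff']
  exact A.mul_mem (h n) (hu n)

theorem ofPowerSeries_int (p : PowerSeries ℤ) :
    CoeffIn A (HahnSeries.ofPowerSeries ℤ ℂ (p.map (Int.castRingHom ℂ))) := by
  intro n
  rcases le_or_gt 0 n with hn | hn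
  · lift n to ℕ using hn
    rw [HahnSeries.ofPowerSeries_apply_coeff, PowerSeries.coeff_map]
    exact intCast_mem A _
  · rw [ModularCurve.ofPowerSeries_coeff_of_neg _ hn]
    exact A.zero_mem

end CoeffIn

theorem coeffIn_jqModC (A : Subring ℂ) : CoeffIn A (jqModC ℂ) := by
  unfold jqModC
  exact (CoeffIn.single _ A.one_mem).mul (CoeffIn.ofPowerSeries_int _)

theorem coeffIn_deltaC (A : Subring ℂ) : CoeffIn A deltaC := by
  unfold deltaC
  exact (CoeffIn.single _ A.one_mem).mul (CoeffIn.ofPowerSeries_int _)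

theorem coeffIn_deltaInvC (A : Subring ℂ) : CoeffIn A deltaInvC := by
  unfold deltaInvC
  exact (CoeffIn.single _ A.one_mem).mul (CoeffIn.ofPowerSeries_int _)

/-! ### Roots of unity in the coefficient ring -/

theorem zeta_mem (N : ℕ) : Complex.exp (2 * Real.pi * Complex.I / N) ∈ coeffRing N :=
  Subring.subset_closure (by simp)

theorem inv_N_mem (N : ℕ) : ((N : ℂ))⁻¹ ∈ coeffRing N :=
  Subring.subset_closure (by simp)

theorem zeta_pow_N (N : ℕ) [NeZero N] : Complex.exp (2 * Real.pi * Complex.I / N) ^ N = 1 := by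
  have hN : (N : ℂ) ≠ 0 := by exact_mod_cast NeZero.ne N
  rw [← Complex.exp_nat_mul, mul_div_cancel₀ _ hN, Complex.exp_two_pi_mul_I]

theorem exp_int_div_mem (N : ℕ) [NeZero N] (k : ℤ) :
    Complex.exp (2 * Real.pi * Complex.I * k / N) ∈ coeffRing N := by
  have hN : (N : ℂ) ≠ 0 := by exact_mod_cast NeZero.ne N
  have hNz : (N : ℤ) ≠ 0 := by exact_mod_cast NeZero.ne N
  have hr : 0 ≤ k % (N : ℤ) := Int.emod_nonneg _ hNz
  have hk : k = (N : ℤ) * (k / N) + (k % (N : ℤ)).toNat := by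
    rw [Int.toNat_of_nonneg hr]
    exact (Int.mul_ediv_add_emod k N).symm
  have h1 : Complex.exp (2 * Real.pi * Complex.I * k / N)
      = Complex.exp (2 * Real.pi * Complex.I / N) ^ ((k % (N : ℤ)).toNat) := by
    rw [← Complex.exp_nat_mul]
    conv_lhs => rw [hk]
    rw [Complex.exp_eq_exp_iff_exists_int]
    refine ⟨k / N, ?_⟩
    push_cast
    field_simp
    ring
  rw [h1]
  exact Subring.pow_mem _ (zeta_mem N) _

theorem zetaU_zpow_mem (N : ℕ) [NeZero N] {M : ℕ} (hM : M ∣ N) (b n : ℤ) :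
    ((zetaU M b : ℂˣ) : ℂ) ^ n ∈ coeffRing N := by
  obtain ⟨e, rfl⟩ := hM
  have hMe : M * e ≠ 0 := NeZero.ne _
  have hM0 : (M : ℂ) ≠ 0 := by
    have : M ≠ 0 := fun h => hMe (by simp [h])
    exact_mod_cast this
  have he0 : (e : ℂ) ≠ 0 := by
    have : e ≠ 0 := fun h => hMe (by simp [h])
    exact_mod_cast this
  have h := exp_int_div_mem (M * e) (b * n * e)
  convert h using 1
  rw [coe_zetaU, ← Complex.exp_int_mul]
  congr 1
  push_cast
  field_simp

theorem inv_natCast_mem (N : ℕ) [NeZero N] {M : ℕ} (hM : M ∣ N) :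
    ((M : ℂ))⁻¹ ∈ coeffRing N := by
  obtain ⟨e, rfl⟩ := hM
  have hMe : M * e ≠ 0 := NeZero.ne _
  have hM0 : (M : ℂ) ≠ 0 := by
    have : M ≠ 0 := fun h => hMe (by simp [h])
    exact_mod_cast this
  have he0 : (e : ℂ) ≠ 0 := by
    have : e ≠ 0 := fun h => hMe (by simp [h])
    exact_mod_cast this
  have h : ((M : ℂ))⁻¹ = (e : ℂ) * (((M * e : ℕ) : ℂ))⁻¹ := by
    push_cast
    field_simp
  rw [h]
  exact Subring.mul_mem _ (natCast_mem _ e) (inv_N_mem _)

end Fermat.Agent.S28.H213
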