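import Fermat.Agent.S28.H213.Orbit

/-!
# S28 analytic package (helper213): expansions of the conjugate functions
-/

set_option autoImplicit false

noncomputable section

namespace Fermat.Agent.S28.H213

open UpperHalfPlane Complex HahnSeries ModularCurve
open Fermat.Agent.S28.H205 Fermat.Agent.S28.H628
open scoped Real Manifold MatrixGroups

theorem convTo_level_congr {M N : ℕ} (h : M = N) {φ : LaurentSeries ℂ} {f : ℍ → ℂ}
    (hc : ConvTo M φ f) : ConvTo N φ f := h ▸ hc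

/-- Substituting `τ ↦ (aτ+b)/δ`, `δ ∣ N`, in a level-one expansion gives a level-`N` expansion
with coefficients in `ℤ[ζ_N, 1/N]`. -/
theorem exists_convTo_comp_affH (N : ℕ) [NeZero N] {a δ : ℕ} (b : ℕ) (ha : 0 < a) (hδ : 0 < δ)
    (hδN : δ ∣ N) {φ : LaurentSeries ℂ} {f : ℍ → ℂ} (h : ConvTo 1 φ f)
    (hφ : CoeffIn (coeffRing N) φ) :
    ∃ ψ : LaurentSeries ℂ, ConvTo N ψ (f ∘ affH a b δ) ∧ CoeffIn (coeffRing N) ψ := by
  have : NeZero a := ⟨ha.ne'⟩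
  obtain ⟨e, he⟩ := hδN
  have he0 : e ≠ 0 := by
    rintro rfl
    exact NeZero.ne N (by rw [he, mul_zero])
  have : NeZero e := ⟨he0⟩
  have h1 := h.subst a δ (b : ℤ) (affH a b δ) (fun τ => by
    rw [coe_affH ha hδ]; push_cast; rfl)
  have h2 := h1.changeLevel e
  refine ⟨_, convTo_level_congr (by rw [he, one_mul]) h2, ?_⟩
  refine CoeffIn.qExpand (CoeffIn.qExpand (hφ.twist _ fun n => ?_) a) e
  exact zetaU_zpow_mem N (by rw [one_mul]; exact ⟨e, he⟩) _ _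

theorem exists_convTo_jAff (N : ℕ) [NeZero N] {a δ : ℕ} (b : ℕ) (ha : 0 < a) (hδ : 0 < δ)
    (hδN : δ ∣ N) :
    ∃ ψ : LaurentSeries ℂ, ConvTo N ψ (jAff a b δ) ∧ CoeffIn (coeffRing N) ψ :=
  exists_convTo_comp_affH N b ha hδ hδN convTo_J (coeffIn_jqModC _)

theorem convTo_Dlt_inv_level (N : ℕ) [NeZero N] :
    ConvTo N (qExpand ℂ N deltaInvC) (fun τ => (Dlt τ)⁻¹) :=
  convTo_level_congr (one_mul N) (convTo_Dlt_inv.changeLevel N)

theorem exists_convTo_uAff (N : ℕ) [NeZero N] {a δ : ℕ} (b : ℕ) (ha : 0 < a) (hδ : 0 < δ)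
    (hδN : δ ∣ N) :
    ∃ ψ : LaurentSeries ℂ, ConvTo N ψ (uAff a b δ) ∧ CoeffIn (coeffRing N) ψ := by
  obtain ⟨ψ, hψ, hψc⟩ := exists_convTo_comp_affH N b ha hδ hδN convTo_Dlt (coeffIn_deltaC _)
  have hc : ((δ : ℂ) ^ 12)⁻¹ ∈ coeffRing N := by
    rw [← inv_pow]
    exact Subring.pow_mem _ (inv_natCast_mem N hδN) 12
  refine ⟨HahnSeries.C (((δ : ℂ) ^ 12)⁻¹) * (ψ * qExpand ℂ N deltaInvC), ?_, ?_⟩
  · have h := (convTo_C N (((δ : ℂ) ^ 12)⁻¹)).mul (hψ.mul (convTo_Dlt_inv_level N))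
    exact h.congr_fun (fun τ => rfl)
  · exact (CoeffIn.const hc).mul (hψc.mul ((coeffIn_deltaInvC _).qExpand N))

/-! ### The distinguished generators -/

theorem coeffMap_jq : coeffMap (algebraMap ℚ ℂ) jq = jqModC ℂ := by
  rw [← jqModC_rat, coeffMap_jqModC]

theorem iotaN_jq (N : ℕ) [NeZero N] : iotaN N jq = qExpand ℂ N (jqModC ℂ) := by
  unfold iotaN
  rw [RingHom.comp_apply, coeffMap_jq]

theorem iotaN_qExpand_jq (N : ℕ) [NeZero N] (d : ℕ) [NeZero d] :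
    iotaN N (qExpand ℚ d jq) = qExpand ℂ N (qExpand ℂ d (jqModC ℂ)) := by
  unfold iotaN
  rw [RingHom.comp_apply, coeffMap_qExpand, coeffMap_jq]

theorem coeffMap_deltaq : coeffMap (algebraMap ℚ ℂ) deltaq = deltaC := by
  unfold deltaq deltaC
  rw [map_mul, coeffMap_single, map_one, coeffMap_ofPowerSeries,
    ← RingHom.comp_apply (PowerSeries.map (algebraMap ℚ ℂ)) (PowerSeries.map (Int.castRingHom ℚ)),
    ← PowerSeries.map_comp,
    RingHom.ext_int ((algebraMap ℚ ℂ).comp (Int.castRingHom ℚ)) (Int.castRingHom ℂ)]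

theorem iotaN_unitq (N : ℕ) [NeZero N] (p : ℕ) [NeZero p] :
    iotaN N (unitq p) = qExpand ℂ N (qExpand ℂ p deltaC * deltaInvC) := by
  unfold iotaN unitq
  rw [RingHom.comp_apply, map_div₀, coeffMap_qExpand, coeffMap_deltaq, deltaInvC_eq,
    div_eq_mul_inv]

theorem convTo_comp_mul (d : ℕ) [NeZero d] {φ : LaurentSeries ℂ} {f : ℍ → ℂ}
    (h : ConvTo 1 φ f) : ConvTo 1 (qExpand ℂ d φ) (f ∘ affH d 0 1) :=
  h.qExpand d (affH d 0 1) (fun τ => by
    rw [coe_affH (Nat.pos_of_ne_zero (NeZero.ne d)) one_pos]; simp)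

theorem convTo_jLev (N : ℕ) [NeZero N] (d : ℕ) [NeZero d] :
    ConvTo N (iotaN N (qExpand ℚ d jq)) (jLev d) := by
  rw [iotaN_qExpand_jq]
  exact convTo_level_congr (one_mul N) ((convTo_comp_mul d convTo_J).changeLevel N)

theorem convTo_uLev (N : ℕ) [NeZero N] (p : ℕ) [NeZero p] :
    ConvTo N (iotaN N (unitq p)) (uLev p) := by
  rw [iotaN_unitq]
  have h := ((convTo_comp_mul p convTo_Dlt).mul convTo_Dlt_inv)
  have h' : ConvTo 1 (qExpand ℂ p deltaC * deltaInvC) (uLev p) :=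
    h.congr_fun (fun τ => by
      show Dlt (affH p 0 1 τ) * (Dlt τ)⁻¹ = ((((1 : ℕ) : ℂ)) ^ 12)⁻¹ * _
      simp)
  exact convTo_level_congr (one_mul N) (h'.changeLevel N)

end Fermat.Agent.S28.H213
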