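import Fermat.Agent.S28.H868.Interface
import Fermat.Agent.S28.H205.Conv
import Fermat.Agent.S24.JFun.Laurent
import Fermat.Agent.S24.H902.JBridge

/-!
# S28 analytic package (helper213): level-one expansions in the `ConvTo` calculus

`J = E₄³/Δ`, `Δ` and `1/Δ` have the Prelude's formal series as convergent expansions.
-/

set_option autoImplicit false

noncomputable section

namespace Fermat.Agent.S28.H213

open UpperHalfPlane Complex HahnSeries ModularCurve
open Fermat.Agent.S28.H205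
open scoped Real Manifold MatrixGroups

/-- The analytic `j`-function (the one on main). -/
abbrev J : ℍ → ℂ := Fermat.Agent.S24.JFun.jFun

/-- The analytic discriminant as a plain function. -/
def Dlt : ℍ → ℂ := fun τ => ModularForm.discriminant τ

theorem Dlt_ne_zero (τ : ℍ) : Dlt τ ≠ 0 := ModularForm.discriminant_ne_zero τ

theorem tPar_one (τ : ℍ) : tPar 1 τ = Function.Periodic.qParam 1 (τ : ℂ) := by
  simp [tPar]

/-- `j` has the expansion `jqModC ℂ`. -/
theorem convTo_J : ConvTo 1 (jqModC ℂ) J := by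
  intro τ
  have h := Fermat.Agent.S24.JFun.hasSum_jFun τ
  simpa [tPar_one] using h

/-- The formal discriminant over `ℂ`. -/
def deltaC : LaurentSeries ℂ :=
  HahnSeries.single (1 : ℤ) 1 *
    HahnSeries.ofPowerSeries ℤ ℂ (dedekindEtaUnit.map (Int.castRingHom ℂ))

/-- The formal inverse discriminant over `ℂ`. -/
def deltaInvC : LaurentSeries ℂ :=
  HahnSeries.single (-1 : ℤ) 1 *
    HahnSeries.ofPowerSeries ℤ ℂ (dedekindEtaUnitInv.map (Int.castRingHom ℂ))

theorem deltaC_mul_deltaInvC : deltaC * deltaInvC = 1 := by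
  unfold deltaC deltaInvC
  rw [mul_mul_mul_comm, HahnSeries.single_mul_single, ← map_mul, ← map_mul,
    dedekindEtaUnit_mul_inv]
  simp

theorem deltaC_ne_zero : deltaC ≠ 0 := by
  intro h
  have := deltaC_mul_deltaInvC
  rw [h, zero_mul] at this
  exact zero_ne_one this

theorem deltaInvC_eq : deltaInvC = deltaC⁻¹ :=
  eq_inv_of_mul_eq_one_right deltaC_mul_deltaInvC

/-- `Δ` has the expansion `deltaC`. -/
theorem convTo_Dlt : ConvTo 1 deltaC Dlt := by
  unfold deltaC
  rw [convTo_single_mul_ofPS_iff]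
  intro τ
  have hq : ‖Function.Periodic.qParam 1 (τ : ℂ)‖ < 1 :=
    Fermat.Agent.S24.H902.norm_qParam_one_lt_one τ
  have h := Fermat.Agent.S24.H902.ev_dedekindEtaUnit hq
  have hq0 : Function.Periodic.qParam 1 (τ : ℂ) ≠ 0 := Function.Periodic.qParam_ne_zero _
  have hval : tPar 1 τ ^ (-(1 : ℤ)) * Dlt τ
      = (∏' n : ℕ, (1 - Function.Periodic.qParam 1 (τ : ℂ) ^ (n + 1))) ^ 24 := by
    rw [tPar_one, Dlt, Fermat.Agent.S24.H902.discriminant_eq_q_mul_eulerFn_pow]
    rw [zpow_neg, zpow_one, ← mul_assoc, inv_mul_cancel₀ hq0, one_mul]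
  show HasSum _ (tPar 1 τ ^ (-(1 : ℤ)) * Dlt τ)
  rw [hval]
  simp only [tPar_one]
  exact h

/-- `1/Δ` has the expansion `deltaInvC`. -/
theorem convTo_Dlt_inv : ConvTo 1 deltaInvC (fun τ => (Dlt τ)⁻¹) := by
  rw [deltaInvC_eq]
  exact convTo_Dlt.inv Dlt_ne_zero

end Fermat.Agent.S28.H213
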