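import Fermat.Agent.S28.H213.Coeff
import Fermat.Agent.S28.H628.Hermite

/-!
# S28 analytic package (helper213): the conjugate functions and their expansions

`jAff a b δ = J((aτ+b)/δ)`, `uAff a b δ = δ⁻¹² Δ((aτ+b)/δ)/Δ(τ)`; Hermite reduction shows
`J(d·γτ)` and `Δ(d·γτ)/Δ(γτ)` are of this form; each has a convergent expansion in
`t = exp(2πiτ/N)` with coefficients in `ℤ[ζ_N, 1/N]`.
-/

set_option autoImplicit false

noncomputable section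

namespace Fermat.Agent.S28.H213

open UpperHalfPlane Complex HahnSeries ModularCurve
open Fermat.Agent.S28.H205 Fermat.Agent.S28.H628
open scoped Real Manifold MatrixGroups

/-- `τ ↦ (aτ+b)/δ` on `ℍ` (the identity when `a = 0` or `δ = 0`). -/
def affH (a b δ : ℕ) (τ : ℍ) : ℍ :=
  if h : 0 < a ∧ 0 < δ then
    ⟨((a : ℂ) * τ + b) / δ, by
      have ha : (0 : ℝ) < a := by exact_mod_cast h.1
      have hδ : (0 : ℝ) < δ := by exact_mod_cast h.2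
      have him : (((a : ℂ) * τ + b) / δ).im = (a : ℝ) * τ.im / δ := by
        rw [show ((a : ℂ) * τ + b) / δ = (((a : ℂ) * τ + b)) / ((δ : ℝ) : ℂ) by push_cast; rfl,
          Complex.div_ofReal_im]
        simp
      rw [him]
      exact div_pos (mul_pos ha τ.im_pos) hδ⟩
  else τ

theorem coe_affH {a δ : ℕ} (ha : 0 < a) (hδ : 0 < δ) (b : ℕ) (τ : ℍ) :
    (affH a b δ τ : ℂ) = ((a : ℂ) * τ + b) / δ := by
  unfold affH
  rw [dif_pos ⟨ha, hδ⟩]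

/-- `J((aτ+b)/δ)`. -/
def jAff (a b δ : ℕ) : ℍ → ℂ := fun τ => J (affH a b δ τ)

/-- `δ⁻¹² Δ((aτ+b)/δ) / Δ(τ)`. -/
def uAff (a b δ : ℕ) : ℍ → ℂ := fun τ =>
  ((δ : ℂ) ^ 12)⁻¹ * (Dlt (affH a b δ τ) * (Dlt τ)⁻¹)

/-- `J(dτ)`. -/
def jLev (d : ℕ) : ℍ → ℂ := jAff d 0 1

/-- `Δ(dτ)/Δ(τ)`. -/
def uLev (d : ℕ) : ℍ → ℂ := uAff d 0 1

theorem denom_SL2 (γ : SL(2, ℤ)) (τ : ℍ) :
    denom (γ : GL (Fin 2) ℝ) τ = (γ 1 0 : ℂ) * τ + (γ 1 1 : ℂ) := by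
  simp [denom]

/-- Hermite reduction with the automorphy factor. -/
theorem hermite_smul_denom {d : ℕ} (hd : 0 < d) (γ : SL(2, ℤ)) :
    ∃ γ' : SL(2, ℤ), ∀ τ : ℍ,
      γ' • affH (hermA d γ) (hermB d γ) (hermD d γ) τ = affH d 0 1 (γ • τ) ∧
      denom (γ : GL (Fin 2) ℝ) τ = (hermD d γ : ℂ) *
        denom (γ' : GL (Fin 2) ℝ) (affH (hermA d γ) (hermB d γ) (hermD d γ) τ) := by
  obtain ⟨γ', hmat⟩ := hermite_spec hd γ
  refine ⟨γ', fun τ => ?_⟩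
  have hσ := coe_affH (hermA_pos hd γ) (hermD_pos hd γ) (hermB d γ) τ
  set σ := affH (hermA d γ) (hermB d γ) (hermD d γ) τ with hσdef
  have h00 := congrFun (congrFun hmat 0) 0
  have h01 := congrFun (congrFun hmat 0) 1
  have h10 := congrFun (congrFun hmat 1) 0
  have h11 := congrFun (congrFun hmat 1) 1
  simp only [Matrix.mul_apply, Fin.sum_univ_two, Matrix.of_apply, Matrix.cons_val',
    Matrix.cons_val_zero, Matrix.cons_val_one, Matrix.empty_val', Matrix.cons_val_fin_one,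
    zero_mul, add_zero, one_mul, zero_add, mul_zero] at h00 h01 h10 h11
  have c00 : (d : ℂ) * (γ 0 0 : ℂ) = (γ' 0 0 : ℂ) * (hermA d γ : ℂ) := by exact_mod_cast h00
  have c01 : (d : ℂ) * (γ 0 1 : ℂ)
      = (γ' 0 0 : ℂ) * (hermB d γ : ℂ) + (γ' 0 1 : ℂ) * (hermD d γ : ℂ) := by
    exact_mod_cast h01
  have c10 : (γ 1 0 : ℂ) = (γ' 1 0 : ℂ) * (hermA d γ : ℂ) := by exact_mod_cast h10
  have c11 : (γ 1 1 : ℂ) = (γ' 1 0 : ℂ) * (hermB d γ : ℂ) + (γ' 1 1 : ℂ) * (hermD d γ : ℂ) := by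
    exact_mod_cast h11
  have hD0 : (hermD d γ : ℂ) ≠ 0 := by exact_mod_cast (hermD_pos hd γ).ne'
  have hden1 := int_lin_ne_zero _ _ (SL2_bottom_ne_zero γ) τ
  have hden2 := int_lin_ne_zero _ _ (SL2_bottom_ne_zero γ') σ
  have hnum : (γ' 0 0 : ℂ) * σ + (γ' 0 1 : ℂ)
      = (d : ℂ) * ((γ 0 0 : ℂ) * τ + (γ 0 1 : ℂ)) / (hermD d γ : ℂ) := by
    rw [hσ]; field_simp; linear_combination (-(τ : ℂ)) * c00 - c01
  have hdenom : (γ' 1 0 : ℂ) * σ + (γ' 1 1 : ℂ)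
      = ((γ 1 0 : ℂ) * τ + (γ 1 1 : ℂ)) / (hermD d γ : ℂ) := by
    rw [hσ]; field_simp; linear_combination (-(τ : ℂ)) * c10 - c11
  constructor
  · apply UpperHalfPlane.ext
    rw [coe_affH hd one_pos, SL2_coe_smul, SL2_coe_smul, hnum, hdenom]
    field_simp
    simp
  · rw [denom_SL2, denom_SL2, hdenom]
    field_simp

theorem jLev_smul {d : ℕ} (hd : 0 < d) (γ : SL(2, ℤ)) (τ : ℍ) :
    jLev d (γ • τ) = jAff (hermA d γ) (hermB d γ) (hermD d γ) τ := by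
  obtain ⟨γ', h⟩ := hermite_smul_denom hd γ
  unfold jLev jAff
  rw [← (h τ).1]
  exact Fermat.Agent.S24.JFun.jFun_smul γ' _

theorem Dlt_smul (γ : SL(2, ℤ)) (τ : ℍ) :
    Dlt (γ • τ) = denom (γ : GL (Fin 2) ℝ) τ ^ 12 * Dlt τ := by
  have h := Fermat.Agent.S24.JFun.discriminant_smul γ τ
  unfold Dlt
  rw [h]
  norm_cast

theorem uLev_smul {d : ℕ} (hd : 0 < d) (γ : SL(2, ℤ)) (τ : ℍ) :
    uLev d (γ • τ) = uAff (hermA d γ) (hermB d γ) (hermD d γ) τ := by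
  obtain ⟨γ', h⟩ := hermite_smul_denom hd γ
  unfold uLev uAff
  rw [← (h τ).1, Dlt_smul γ τ, Dlt_smul γ', (h τ).2]
  have hD0 : (hermD d γ : ℂ) ≠ 0 := by exact_mod_cast (hermD_pos hd γ).ne'
  have h1 : denom (γ' : GL (Fin 2) ℝ) (affH (hermA d γ) (hermB d γ) (hermD d γ) τ) ≠ 0 :=
    denom_ne_zero _ _
  have h2 := Dlt_ne_zero τ
  field_simp
  simp

end Fermat.Agent.S28.H213
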