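import Fermat.Agent.S28.H213.PolyPrinciple

/-!
# S28 analytic package (helper213): construction of `ModFunPackage N`

Index type = the finite set of conjugate functions `J(d·γτ)` (`d ∣ N`) and `u_p(γτ)`
(`p ∣ N` prime); `SL(2,ℤ)` acts by `f ↦ f ∘ γ⁻¹`; the generator attached to a function is its
(unique) expansion in `t = exp(2πiτ/N)`.
-/

set_option autoImplicit false

noncomputable section

namespace Fermat.Agent.S28.H213

open UpperHalfPlane Complex HahnSeries ModularCurve Filter Topology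
open Fermat.Agent.S28.H205 Fermat.Agent.S28.H628
open scoped Real Manifold MatrixGroups

/-- The set of conjugate functions. -/
def genSet (N : ℕ) : Set (ℍ → ℂ) :=
  {f | ∃ d : ℕ, d ∣ N ∧ ∃ γ : SL(2, ℤ), f = fun τ => jLev d (γ • τ)} ∪
  {f | ∃ p : ℕ, p.Prime ∧ p ∣ N ∧ ∃ γ : SL(2, ℤ), f = fun τ => uLev p (γ • τ)}

theorem herm_bounds {N d : ℕ} [NeZero N] (hdN : d ∣ N) (γ : SL(2, ℤ)) :
    0 < hermA d γ ∧ 0 < hermD d γ ∧ hermD d γ ∣ N ∧
      hermA d γ < N + 1 ∧ hermB d γ < N + 1 ∧ hermD d γ < N + 1 := by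
  have hN : 0 < N := Nat.pos_of_ne_zero (NeZero.ne N)
  have hd : 0 < d := Nat.pos_of_dvd_of_pos hdN hN
  have hdle : d ≤ N := Nat.le_of_dvd hN hdN
  have hA : hermA d γ ≤ d := Nat.le_of_dvd hd (hermA_dvd d γ)
  have hD : hermD d γ ≤ d := Nat.le_of_dvd hd (hermD_dvd d γ)
  have hB := hermB_lt hd γ
  exact ⟨hermA_pos hd γ, hermD_pos hd γ, (hermD_dvd d γ).trans hdN, by omega, by omega, by omega⟩

theorem genSet_eq_aff {N : ℕ} [NeZero N] {f : ℍ → ℂ} (hf : f ∈ genSet N) :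
    ∃ a b δ : ℕ, 0 < a ∧ 0 < δ ∧ δ ∣ N ∧ a < N + 1 ∧ b < N + 1 ∧ δ < N + 1 ∧
      (f = jAff a b δ ∨ f = uAff a b δ) := by
  have hN : 0 < N := Nat.pos_of_ne_zero (NeZero.ne N)
  rcases hf with ⟨d, hdN, γ, rfl⟩ | ⟨p, -, hpN, γ, rfl⟩
  · obtain ⟨h1, h2, h3, h4, h5, h6⟩ := herm_bounds hdN γ
    exact ⟨_, _, _, h1, h2, h3, h4, h5, h6,
      Or.inl (funext fun τ => jLev_smul (Nat.pos_of_dvd_of_pos hdN hN) γ τ)⟩
  · obtain ⟨h1, h2, h3, h4, h5, h6⟩ := herm_bounds hpN γ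
    exact ⟨_, _, _, h1, h2, h3, h4, h5, h6,
      Or.inr (funext fun τ => uLev_smul (Nat.pos_of_dvd_of_pos hpN hN) γ τ)⟩

theorem genSet_finite (N : ℕ) [NeZero N] : (genSet N).Finite := by
  let T : Finset (ℕ × ℕ × ℕ) :=
    Finset.range (N + 1) ×ˢ Finset.range (N + 1) ×ˢ Finset.range (N + 1)
  have hfin : (((fun x : ℕ × ℕ × ℕ => jAff x.1 x.2.1 x.2.2) '' (T : Set (ℕ × ℕ × ℕ))) ∪
      ((fun x : ℕ × ℕ × ℕ => uAff x.1 x.2.1 x.2.2) '' (T : Set (ℕ × ℕ × ℕ)))).Finite :=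
    (T.finite_toSet.image _).union (T.finite_toSet.image _)
  refine hfin.subset fun f hf => ?_
  obtain ⟨a, b, δ, -, -, -, ha, hb, hδ, h⟩ := genSet_eq_aff hf
  have hmem : ((a, b, δ) : ℕ × ℕ × ℕ) ∈ (T : Set (ℕ × ℕ × ℕ)) := by
    simp only [T, Finset.coe_product, Set.mem_prod, Finset.mem_coe, Finset.mem_range]
    exact ⟨ha, hb, hδ⟩
  rcases h with rfl | rfl
  · exact Or.inl ⟨(a, b, δ), hmem, rfl⟩
  · exact Or.inr ⟨(a, b, δ), hmem, rfl⟩

theorem genSet_good (N : ℕ) [NeZero N] {f : ℍ → ℂ} (hf : f ∈ genSet N) :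
    ∃ φ : LaurentSeries ℂ, ConvTo N φ f ∧ CoeffIn (coeffRing N) φ := by
  obtain ⟨a, b, δ, ha, hδ, hδN, -, -, -, h⟩ := genSet_eq_aff hf
  rcases h with rfl | rfl
  · exact exists_convTo_jAff N b ha hδ hδN
  · exact exists_convTo_uAff N b ha hδ hδN

theorem genSet_smul {N : ℕ} {f : ℍ → ℂ} (hf : f ∈ genSet N) (γ : SL(2, ℤ)) :
    (fun τ => f (γ • τ)) ∈ genSet N := by
  rcases hf with ⟨d, hdN, γ₀, rfl⟩ | ⟨p, hp, hpN, γ₀, rfl⟩
  · exact Or.inl ⟨d, hdN, γ₀ * γ, funext fun τ => by rw [mul_smul]⟩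
  · exact Or.inr ⟨p, hp, hpN, γ₀ * γ, funext fun τ => by rw [mul_smul]⟩

/-- The index type. -/
abbrev Idx (N : ℕ) : Type := {f : ℍ → ℂ // f ∈ genSet N}

instance idxFintype (N : ℕ) [NeZero N] : Fintype (Idx N) := (genSet_finite N).fintype

/-- The expansion of a conjugate function. -/
def genSer (N : ℕ) [NeZero N] (i : Idx N) : LaurentSeries ℂ :=
  Classical.choose (genSet_good N i.2)

theorem genSer_spec (N : ℕ) [NeZero N] (i : Idx N) : ConvTo N (genSer N i) i.1 :=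
  (Classical.choose_spec (genSet_good N i.2)).1

theorem genSer_coeff (N : ℕ) [NeZero N] (i : Idx N) : CoeffIn (coeffRing N) (genSer N i) :=
  (Classical.choose_spec (genSet_good N i.2)).2

theorem genSer_eq (N : ℕ) [NeZero N] (i : Idx N) {φ : LaurentSeries ℂ} (h : ConvTo N φ i.1) :
    genSer N i = φ :=
  (genSer_spec N i).series_unique h

/-- The action on indices: `f ↦ f ∘ γ⁻¹`. -/
def permFun (N : ℕ) (γ : SL(2, ℤ)) (i : Idx N) : Idx N :=
  ⟨fun τ => i.1 (γ⁻¹ • τ), genSet_smul i.2 γ⁻¹⟩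

theorem permFun_one (N : ℕ) (i : Idx N) : permFun N 1 i = i := by
  apply Subtype.ext
  funext τ
  simp [permFun]

theorem permFun_mul (N : ℕ) (γ₁ γ₂ : SL(2, ℤ)) (i : Idx N) :
    permFun N (γ₁ * γ₂) i = permFun N γ₁ (permFun N γ₂ i) := by
  apply Subtype.ext
  funext τ
  simp [permFun, mul_smul]

/-- The action as a permutation representation. -/
def permHom (N : ℕ) : SL(2, ℤ) →* Equiv.Perm (Idx N) where
  toFun γ :=
    { toFun := permFun N γ
      invFun := permFun N γ⁻¹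
      left_inv := fun i => by rw [← permFun_mul, inv_mul_cancel, permFun_one]
      right_inv := fun i => by rw [← permFun_mul, mul_inv_cancel, permFun_one] }
  map_one' := by
    ext i : 1
    exact permFun_one N i
  map_mul' γ₁ γ₂ := by
    ext i : 1
    exact permFun_mul N γ₁ γ₂ i

@[simp] theorem permHom_apply (N : ℕ) (γ : SL(2, ℤ)) (i : Idx N) :
    permHom N γ i = permFun N γ i := rfl

/-- Polynomial expressions in the generators expand polynomial expressions in the functions. -/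
theorem convTo_aeval {N : ℕ} {ι : Type*} (gen : ι → LaurentSeries ℂ) (fn : ι → ℍ → ℂ)
    (h : ∀ i, ConvTo N (gen i) (fn i)) (p : MvPolynomial ι ℂ) :
    ConvTo N (MvPolynomial.aeval gen p) (fun τ => MvPolynomial.eval (fun i => fn i τ) p) := by
  induction p using MvPolynomial.induction_on with
  | C a =>
    rw [MvPolynomial.aeval_C, algebraMap_eq_C]
    exact (convTo_C N a).congr_fun (fun τ => by simp)
  | add p q hp hq =>
    rw [map_add]
    exact (hp.add hq).congr_fun (fun τ => by simp)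
  | mul_X p i hp =>
    rw [map_mul, MvPolynomial.aeval_X]
    exact (hp.mul (h i)).congr_fun (fun τ => by simp)

/-- The polynomial function attached to `p`. -/
def polyFun (N : ℕ) (p : MvPolynomial (Idx N) ℂ) : ℍ → ℂ :=
  fun τ => MvPolynomial.eval (fun i : Idx N => i.1 τ) p

theorem convTo_polyFun (N : ℕ) [NeZero N] (p : MvPolynomial (Idx N) ℂ) :
    ConvTo N (MvPolynomial.aeval (genSer N) p) (polyFun N p) :=
  convTo_aeval (genSer N) (fun i => i.1) (genSer_spec N) p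

theorem convTo_polyFun_perm (N : ℕ) [NeZero N] (γ : SL(2, ℤ)) (p : MvPolynomial (Idx N) ℂ) :
    ConvTo N (MvPolynomial.aeval (genSer N ∘ permHom N γ) p)
      (fun τ => polyFun N p (γ⁻¹ • τ)) :=
  convTo_aeval (genSer N ∘ permHom N γ) (fun i τ => i.1 (γ⁻¹ • τ))
    (fun i => genSer_spec N (permFun N γ i)) p

theorem twist_eq (u : ℂˣ) (φ : LaurentSeries ℂ) : H205.twist u φ = Fermat.Agent.S28.twist u φ := by
  ext n
  rw [H205.twist_coeff, Fermat.Agent.S28.twist_coeff, mul_comm]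

theorem zetaU_pow (N : ℕ) [NeZero N] (b : ℤ) : zetaU N b ^ N = 1 := by
  have hN : (N : ℂ) ≠ 0 := by exact_mod_cast NeZero.ne N
  apply Units.ext
  rw [Units.val_pow_eq_pow_val, coe_zetaU, ← Complex.exp_nat_mul, Units.val_one,
    Complex.exp_eq_one_iff]
  refine ⟨b, ?_⟩
  field_simp

theorem T_inv_smul (τ : ℍ) : ((ModularGroup.T⁻¹ • τ : ℍ) : ℂ) = τ + ((-1 : ℤ) : ℂ) := by
  have h := ModularGroup.coe_T_zpow_smul_eq τ (n := -1)
  rw [zpow_neg, zpow_one] at h
  exact h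

/-- **The analytic package exists.** -/
theorem exists_modFunPackage (N : ℕ) [NeZero N] : Nonempty (ModFunPackage N) := by
  have hNpos : 0 < N := Nat.pos_of_ne_zero (NeZero.ne N)
  refine ⟨{
    ι := Idx N
    fin := idxFintype N
    gen := genSer N
    perm := permHom N
    rel := ?_
    inv := ?_
    coeff_mem := fun i n => genSer_coeff N i n
    twistUnit := zetaU N (-1)
    twistUnit_pow := zetaU_pow N (-1)
    perm_T := ?_
    idxJ := fun d _ hd => ⟨jLev d, Or.inl ⟨d, hd, 1, funext fun τ => by rw [one_smul]⟩⟩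
    gen_idxJ := ?_
    fixJ := ?_
    idxU := fun p _ hp hpN => ⟨uLev p, Or.inr ⟨p, hp, hpN, 1, funext fun τ => by rw [one_smul]⟩⟩
    gen_idxU := ?_
    fixU := ?_ }⟩
  · -- rel
    intro γ p hp
    have h1 := convTo_polyFun N p
    rw [hp] at h1
    have h0 : polyFun N p = 0 := h1.fun_unique (convTo_zero N) |>.symm ▸ rfl
    have h2 := convTo_polyFun_perm N γ p
    have h3 : (fun τ => polyFun N p (γ⁻¹ • τ)) = 0 := by
      funext τ
      rw [h0]
      rfl
    rw [h3] at h2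
    exact h2.zero_fun
  · -- inv
    intro p hp
    refine poly_principle (convTo_polyFun N p) fun γ τ => ?_
    have h2 := convTo_polyFun_perm N γ⁻¹ p
    rw [hp γ⁻¹, inv_inv] at h2
    exact congrFun (h2.fun_unique (convTo_polyFun N p)) τ
  · -- perm_T
    intro i
    rw [← twist_eq]
    refine genSer_eq N _ ?_
    exact (genSer_spec N i).twist (-1) (fun τ => ModularGroup.T⁻¹ • τ) T_inv_smul
  · -- gen_idxJ
    intro d _ hd
    exact genSer_eq N _ (convTo_jLev N d)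
  · -- fixJ
    intro d _ hd γ hγ
    apply Subtype.ext
    funext τ
    have hdpos : 0 < d := Nat.pos_of_dvd_of_pos hd hNpos
    have hγ' : γ⁻¹ ∈ CongruenceSubgroup.Gamma0 N := inv_mem hγ
    have h := herm_Gamma0_mul hdpos hd hγ' (1 : SL(2, ℤ))
    rw [mul_one] at h
    obtain ⟨hA, hB, hD⟩ := herm_one hdpos
    show jLev d (γ⁻¹ • τ) = jLev d τ
    rw [jLev_smul hdpos, h.1, h.2.1, h.2.2, hA, hB, hD]
    rfl
  · -- gen_idxU
    intro p _ hp hpN
    exact genSer_eq N _ (convTo_uLev N p)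
  · -- fixU
    intro p _ hp hpN γ hγ
    apply Subtype.ext
    funext τ
    have hppos : 0 < p := hp.pos
    have hγ' : γ⁻¹ ∈ CongruenceSubgroup.Gamma0 p := inv_mem hγ
    have h := herm_Gamma0_mul hppos (dvd_refl p) hγ' (1 : SL(2, ℤ))
    rw [mul_one] at h
    obtain ⟨hA, hB, hD⟩ := herm_one hppos
    show uLev p (γ⁻¹ • τ) = uLev p τ
    rw [uLev_smul hppos, h.1, h.2.1, h.2.2, hA, hB, hD]
    rfl

end Fermat.Agent.S28.H213
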