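import Fermat.Agent.S28.H213.Expand
import Fermat.Agent.S24.H864.LevelOnePoly

/-!
# S28 analytic package (helper213): the polynomial principle in series form

An `SL(2,ℤ)`-invariant function on `ℍ` with a convergent Laurent expansion `φ` in
`t = exp(2πiτ/N)` has `φ ∈ ℂ[j(t^N)]`.
-/

set_option autoImplicit false

noncomputable section

namespace Fermat.Agent.S28.H213

open UpperHalfPlane Complex HahnSeries ModularCurve Filter Topology
open Fermat.Agent.S28.H205
open scoped Real Manifold MatrixGroups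

theorem tendsto_tPar (N : ℕ) [NeZero N] : Tendsto (fun τ : ℍ => tPar N τ) atImInfty (𝓝 0) :=
  UpperHalfPlane.qParam_tendsto_atImInfty
    (by exact_mod_cast Nat.pos_of_ne_zero (NeZero.ne N))

theorem tendsto_of_pconv {N : ℕ} [NeZero N] {p : PowerSeries ℂ} {G : ℍ → ℂ} (h : PConv N p G) :
    Tendsto G atImInfty (𝓝 (psSum p 0)) := by
  have hd := h.differentiableOn_psSum
  have h0 : ContinuousAt (psSum p) 0 :=
    (hd.differentiableAt
      (Metric.isOpen_ball.mem_nhds (Metric.mem_ball_self one_pos))).continuousAt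
  have ht := h0.tendsto.comp (tendsto_tPar N)
  exact ht.congr (fun τ => (h.eq_psSum τ).symm)

theorem tPar_one_eq_pow (N : ℕ) [NeZero N] (τ : ℍ) : tPar 1 τ = tPar N τ ^ N := by
  have hN : (N : ℂ) ≠ 0 := by exact_mod_cast NeZero.ne N
  simp only [tPar, Function.Periodic.qParam]
  rw [← Complex.exp_nat_mul]
  congr 1
  push_cast
  field_simp

/-- `F · Δ^M` is bounded at `i∞` for `M = max(0, -ord φ)`. -/
theorem bdd_mul_Dlt_pow {N : ℕ} [NeZero N] {φ : LaurentSeries ℂ} {F : ℍ → ℂ}
    (h : ConvTo N φ F) :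
    IsBoundedAtImInfty (fun τ => F τ * ModularForm.discriminant τ ^ (-φ.order).toNat) := by
  set M := (-φ.order).toNat with hM
  have h1 := tendsto_of_pconv ((convTo_iff N φ F).mp h)
  have h2 := tendsto_of_pconv ((convTo_single_mul_ofPS_iff 1 1 _ Dlt).mp convTo_Dlt)
  have hk : 0 ≤ φ.order + (N : ℤ) * M := by
    have hN : (1 : ℤ) ≤ N := by exact_mod_cast Nat.pos_of_ne_zero (NeZero.ne N)
    have hM' : -φ.order ≤ (M : ℤ) := Int.self_le_toNat _
    nlinarith [Int.natCast_nonneg M]
  have h3 := (tendsto_tPar N).pow (φ.order + (N : ℤ) * M).toNat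
  have h4 := (h1.mul (h2.pow M)).mul h3
  refine (h4.congr fun τ => ?_).isBigO_one ℝ
  have ht : tPar N τ ≠ 0 := tPar_ne_zero N τ
  have hX : tPar N τ ^ N ≠ 0 := pow_ne_zero _ ht
  have hB : tPar N τ ^ φ.order ≠ 0 := zpow_ne_zero _ ht
  have e1 : tPar N τ ^ (φ.order + (N : ℤ) * M).toNat
      = tPar N τ ^ φ.order * (tPar N τ ^ N) ^ M := by
    rw [← zpow_natCast (tPar N τ) (φ.order + (N : ℤ) * M).toNat, Int.toNat_of_nonneg hk,
      zpow_add₀ ht, zpow_mul, zpow_natCast, zpow_natCast]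
  rw [e1, tPar_one_eq_pow N τ, zpow_neg, zpow_neg, zpow_one]
  show _ = F τ * Dlt τ ^ M
  rw [mul_pow, inv_pow]
  field_simp

theorem algebraMap_eq_C (a : ℂ) : algebraMap ℂ (LaurentSeries ℂ) a = HahnSeries.C a := by
  rw [HahnSeries.algebraMap_apply']
  simp

theorem convTo_polynomial {N : ℕ} {φ : LaurentSeries ℂ} {f : ℍ → ℂ} (h : ConvTo N φ f)
    (P : Polynomial ℂ) : ConvTo N (Polynomial.aeval φ P) (fun τ => P.eval (f τ)) := by
  induction P using Polynomial.induction_on' with
  | add p q hp hq =>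
    rw [map_add]
    exact (hp.add hq).congr_fun (fun τ => by simp)
  | monomial n a =>
    rw [Polynomial.aeval_monomial, algebraMap_eq_C]
    exact ((convTo_C N a).mul (h.pow n)).congr_fun (fun τ => by simp)

/-- **Polynomial principle.** -/
theorem poly_principle {N : ℕ} [NeZero N] {φ : LaurentSeries ℂ} {F : ℍ → ℂ}
    (h : ConvTo N φ F) (hinv : ∀ (γ : SL(2, ℤ)) (τ : ℍ), F (γ • τ) = F τ) :
    φ ∈ Algebra.adjoin ℂ ({iotaN N jq} : Set (LaurentSeries ℂ)) := by
  obtain ⟨P, -, hP⟩ := Fermat.Agent.S24.H864.exists_polynomial_of_invariant F h.mdiff hinv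
    (-φ.order).toNat (bdd_mul_Dlt_pow h)
  have h1 : ConvTo 1 (Polynomial.aeval (jqModC ℂ) P) F :=
    (convTo_polynomial convTo_J P).congr_fun (fun τ => (hP τ).symm)
  have h2 : ConvTo N (qExpand ℂ N (Polynomial.aeval (jqModC ℂ) P)) F :=
    convTo_level_congr (one_mul N) (h1.changeLevel N)
  rw [h.series_unique h2]
  have key : ∀ Q : Polynomial ℂ, qExpand ℂ N (Polynomial.aeval (jqModC ℂ) Q)
      ∈ Algebra.adjoin ℂ ({iotaN N jq} : Set (LaurentSeries ℂ)) := by
    intro Q
    induction Q using Polynomial.induction_on' with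
    | add p q hp hq =>
      rw [map_add, map_add]
      exact Subalgebra.add_mem _ hp hq
    | monomial n a =>
      rw [Polynomial.aeval_monomial, map_mul, map_pow, algebraMap_eq_C,
        qExpand_C, ← algebraMap_eq_C, ← iotaN_jq]
      exact Subalgebra.mul_mem _ (Subalgebra.algebraMap_mem _ a)
        (Subalgebra.pow_mem _ (Algebra.subset_adjoin (Set.mem_singleton _)) n)
  exact key P

end Fermat.Agent.S28.H213
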